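import Mathlib

/-!
# A light version of the Auslander–Buchsbaum argument

Over a Noetherian local ring `P` whose maximal ideal is generated by a regular sequence,
a finitely generated module `N` admitting a weakly regular sequence (inside the maximal ideal)
of the same length, with finite-length quotient, is free.
-/

set_option autoImplicit false

namespace Fermat.Agent.S57

open CategoryTheory RingTheory.Sequence IsLocalRing

universe u

/-- Over a local ring, a module of finite length has projective dimension `< n`
as soon as the residue field does. -/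
lemma hasProjDimLT_of_isFiniteLength {P : Type u} [CommRing P] [IsLocalRing P] (n : ℕ)
    (hk : HasProjectiveDimensionLT (ModuleCat.of P (P ⧸ maximalIdeal P)) n)
    {L : Type u} [AddCommGroup L] [Module P L] (hL : IsFiniteLength P L) :
    HasProjectiveDimensionLT (ModuleCat.of P L) n := by
  induction hL with
  | @of_subsingleton M _ _ _ =>
    have hz : Limits.IsZero (ModuleCat.of P M) := ModuleCat.isZero_of_subsingleton _
    have := hz.hasProjectiveDimensionLT_zero
    exact hasProjectiveDimensionLT_of_ge (ModuleCat.of P M) 0 n (Nat.zero_le _)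
  | @of_simple_quotient M _ _ N hs hN ih =>
    obtain ⟨I, hI, ⟨e⟩⟩ := isSimpleModule_iff_quot_maximal.mp hs
    have hIm : I = maximalIdeal P := IsLocalRing.eq_maximalIdeal hI
    subst hIm
    let S : ShortComplex (ModuleCat.{u} P) := (N.mkQ).shortComplexKer
    have hS : S.ShortExact := LinearMap.shortExact_shortComplexKer N.mkQ_surjective
    have h1 : HasProjectiveDimensionLT S.X₁ n := by
      have e1 : (LinearMap.ker N.mkQ) ≃ₗ[P] N := LinearEquiv.ofEq _ _ N.ker_mkQ
      exact hasProjectiveDimensionLT_of_iso (e1.symm.toModuleIso) n
    have h3 : HasProjectiveDimensionLT S.X₃ n :=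
      hasProjectiveDimensionLT_of_iso (e.symm.toModuleIso) n
    exact hS.hasProjectiveDimensionLT_X₂ n h1 h3

/-- Auslander–Buchsbaum, light version: over a Noetherian local ring whose maximal ideal
is generated by a regular sequence `rsP`, a nontrivial finite module with a weakly regular
sequence `rsN` in the maximal ideal, at least as long as `rsP`, and with `N / rsN N` of finite
length, is free. -/
theorem free_of_regular_sequences {P : Type u} [CommRing P] [IsLocalRing P] [IsNoetherianRing P]
    (rsP : List P) (hP : IsRegular P rsP) (hPm : Ideal.ofList rsP = maximalIdeal P)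
    {N : Type u} [AddCommGroup N] [Module P N] [Module.Finite P N] [Nontrivial N]
    (rsN : List P) (hN : IsWeaklyRegular N rsN) (hmem : ∀ x ∈ rsN, x ∈ maximalIdeal P)
    (hlen : rsP.length ≤ rsN.length)
    (hfl : IsFiniteLength P (N ⧸ Ideal.ofList rsN • (⊤ : Submodule P N))) :
    Module.Free P N := by
  have h1 := ModuleCat.projectiveDimension_quotient_eq_add_length_of_isWeaklyRegular
    (ModuleCat.of P N) rsN hN hmem
  have h2 := ModuleCat.projectiveDimension_quotient_eq_length.{u} rsP hP
  -- the residue field has projective dimension `< rsP.length + 1`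
  have hk : HasProjectiveDimensionLT (ModuleCat.of P (P ⧸ maximalIdeal P)) (rsP.length + 1) := by
    have e : (Shrink.{u} (P ⧸ Ideal.ofList rsP)) ≃ₗ[P] (P ⧸ maximalIdeal P) :=
      (Shrink.linearEquiv P _).trans (Submodule.quotEquivOfEq _ _ hPm)
    have h3 : projectiveDimension (ModuleCat.of P (Shrink.{u} (P ⧸ Ideal.ofList rsP))) <
        (rsP.length + 1 : ℕ) := by
      rw [h2]
      exact_mod_cast Nat.lt_succ_self _
    have h4 := projectiveDimension_lt_iff.mp h3
    exact hasProjectiveDimensionLT_of_iso (e.toModuleIso) _
  have hL := hasProjDimLT_of_isFiniteLength (rsP.length + 1) hk hfl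
  have h5 : projectiveDimension
      (ModuleCat.of P (N ⧸ Ideal.ofList rsN • (⊤ : Submodule P N))) < (rsP.length + 1 : ℕ) :=
    projectiveDimension_lt_iff.mpr hL
  rw [h1] at h5
  have h6 : projectiveDimension (ModuleCat.of P N) ≤ (0 : ℕ) := by
    generalize projectiveDimension (ModuleCat.of P N) = d at h5
    induction d with
    | bot => exact bot_le
    | coe d =>
      induction d with
      | top =>
        exfalso
        have : ((⊤ : ℕ∞) : WithBot ℕ∞) + (rsN.length : WithBot ℕ∞) = ((⊤ : ℕ∞) : WithBot ℕ∞) := by
          rw [show (rsN.length : WithBot ℕ∞) = ((rsN.length : ℕ∞) : WithBot ℕ∞) from rfl,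
            ← WithBot.coe_add, top_add]
        rw [this] at h5
        rw [show ((rsP.length + 1 : ℕ) : WithBot ℕ∞) = (((rsP.length + 1 : ℕ) : ℕ∞) : WithBot ℕ∞)
          from rfl, WithBot.coe_lt_coe] at h5
        exact absurd h5 (not_lt.mpr le_top)
      | coe d =>
        have h5' : d + rsN.length < rsP.length + 1 := by exact_mod_cast h5
        have : d = 0 := by omega
        subst this
        exact le_rfl
  have h7 : HasProjectiveDimensionLE (ModuleCat.of P N) 0 :=
    (projectiveDimension_le_iff _ _).mp h6
  have h8 : Projective (ModuleCat.of P N) := (projective_iff_hasProjectiveDimensionLE_zero _).mpr h7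
  have h9 : Module.Projective P N := (IsProjective.iff_projective (R := P) N).mpr h8
  exact Module.free_of_flat_of_isLocalRing

end Fermat.Agent.S57
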