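import Mathlib
import Fermat.Prelude.Def_Algebra_PatchingDatum

/-!
# S57, piece A (assembly)

If the patched module `L.N` is free over `P = 𝒪⟦X₁,…,X_r⟧` (for its own `P`-module structure),
then the three conclusions of the descent step hold.
-/

set_option autoImplicit false

namespace Fermat.Agent.S57

open MvPowerSeries

theorem S57_of_free {𝒪 : Type} [CommRing 𝒪] {r : ℕ} {R : Type} [CommRing R] [Algebra 𝒪 R]
    {M : Type} [AddCommGroup M] [Module R M] [Nontrivial M]
    (L : Algebra.PatchingLevel 𝒪 r R M ⊥)
    (hfree : Module.Free (MvPowerSeries (Fin r) 𝒪) L.N) :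
    Module.Free R M ∧ Module.annihilator R M = ⊥ ∧
      RingHom.ker L.ψ = Ideal.span (Set.range fun i : Fin r => L.φ (MvPowerSeries.X i)) := by
  classical
  set I : Ideal (MvPowerSeries (Fin r) 𝒪) :=
    Ideal.span (Set.range fun i : Fin r => L.φ (MvPowerSeries.X i)) with hI
  let ι := Module.Free.ChooseBasisIndex (MvPowerSeries (Fin r) 𝒪) L.N
  let e : Module.Basis ι (MvPowerSeries (Fin r) 𝒪) L.N :=
    Module.Free.chooseBasis (MvPowerSeries (Fin r) 𝒪) L.N
  -- membership in `I • ⊤` is coordinatewise
  have hmem : ∀ x : L.N, x ∈ I • (⊤ : Submodule (MvPowerSeries (Fin r) 𝒪) L.N) ↔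
      ∀ j, e.repr x j ∈ I := by
    intro x
    rw [← e.span_eq, Submodule.mem_ideal_smul_span_iff_exists_sum]
    constructor
    · rintro ⟨a, ha, rfl⟩ j
      have h1 : (a.sum fun i c => c • e i) = Finsupp.linearCombination _ e a := by
        rw [Finsupp.linearCombination_apply]
      rw [h1, e.repr_linearCombination]
      exact ha j
    · intro h
      refine ⟨e.repr x, h, ?_⟩
      have := e.linearCombination_repr x
      rwa [Finsupp.linearCombination_apply] at this
  -- `π` of a finite `P`-linear combination
  have hπsum : ∀ (s : Finset ι) (g : ι → MvPowerSeries (Fin r) 𝒪),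
      L.π (∑ i ∈ s, g i • e i) = ∑ i ∈ s, L.ψ (g i) • L.π (e i) := by
    intro s g
    rw [map_sum]
    exact Finset.sum_congr rfl fun i _ => L.π_smul _ _
  -- `I ≤ ker ψ`
  have hIker : I ≤ RingHom.ker L.ψ := by
    rw [hI, Ideal.span_le]
    rintro _ ⟨i, rfl⟩
    exact L.ψ_φ_X i
  -- linear independence of the images of the basis
  have hli : LinearIndependent R (fun j : ι => L.π (e j)) := by
    rw [linearIndependent_iff']
    intro s g hg j hj
    choose g' hg' using fun i => L.ψ_surjective (g i)
    have h0 : L.π (∑ i ∈ s, g' i • e i) = 0 := by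
      rw [hπsum, ← hg]
      exact Finset.sum_congr rfl fun i _ => by rw [hg']
    have h1 := (hmem _).1 ((L.ker_π _).1 h0) j
    have h2 : e.repr (∑ i ∈ s, g' i • e i) j = g' j := by
      rw [map_sum, Finsupp.finsetSum_apply]
      simp only [map_smul, Module.Basis.repr_self, Finsupp.smul_apply, smul_eq_mul,
        Finsupp.single_apply]
      rw [Finset.sum_eq_single j]
      · simp
      · intro i _ hij
        simp [hij]
      · intro hj'
        exact absurd hj hj'
    rw [h2] at h1
    rw [← hg' j]
    exact hIker h1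
  -- spanning
  have hsp : ⊤ ≤ Submodule.span R (Set.range fun j : ι => L.π (e j)) := by
    intro m _
    obtain ⟨x, rfl⟩ := L.π_surjective m
    have hx : x = ∑ i ∈ (e.repr x).support, (e.repr x i) • e i := by
      conv_lhs => rw [← e.linearCombination_repr x, Finsupp.linearCombination_apply]
      rfl
    rw [hx, hπsum]
    refine Submodule.sum_mem _ fun i _ => Submodule.smul_mem _ _ (Submodule.subset_span ⟨i, rfl⟩)
  -- the index type is nonempty
  have hne : Nonempty ι := by
    by_contra hemp
    rw [not_nonempty_iff] at hemp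
    have hN : ∀ x : L.N, x = 0 := by
      intro x
      have := e.linearCombination_repr x
      rw [← this]
      have h0 : e.repr x = 0 := Finsupp.ext fun i => (hemp.false i).elim
      rw [h0, map_zero]
    obtain ⟨m, m', hmm'⟩ := exists_pair_ne M
    obtain ⟨x, rfl⟩ := L.π_surjective m
    obtain ⟨x', rfl⟩ := L.π_surjective m'
    exact hmm' (by rw [hN x, hN x'])
  obtain ⟨j₀⟩ := hne
  refine ⟨Module.Free.of_basis (Module.Basis.mk hli hsp), ?_, ?_⟩
  · -- faithfulness
    rw [eq_bot_iff]
    intro a ha
    rw [Module.mem_annihilator] at ha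
    have h := ha (L.π (e j₀))
    rw [linearIndependent_iff'] at hli
    have := hli {j₀} (fun _ => a) (by simpa using h) j₀ (Finset.mem_singleton_self _)
    simpa using this
  · -- kernel of ψ
    refine le_antisymm ?_ hIker
    intro g hg
    rw [RingHom.mem_ker] at hg
    have h0 : L.π (g • e j₀) = 0 := by rw [L.π_smul, hg, zero_smul]
    have h1 := (hmem _).1 ((L.ker_π _).1 h0) j₀
    simpa using h1

end Fermat.Agent.S57
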