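import Mathlib

/-!
# S57, piece B: Artinian quotient for a semilinearly spanned module

If `N` is spanned by `b i` with coefficients in `φ(P)` and `𝔞 ⊇ φ(𝔪)P`, then `N ⧸ 𝔞 N` is an
Artinian `P`-module.
-/

namespace Fermat.Agent.S57

open IsLocalRing

section

set_option linter.unusedSectionVars false

variable {P : Type*} [CommRing P] [IsLocalRing P] (φ : P →+* P)
  {N : Type*} [AddCommGroup N] [Module P N] {d : ℕ} (b : Fin d → N) (𝔞 : Ideal P)

/-- The semilinear map `c ↦ [∑ φ(c i) • b i]` to the quotient `N ⧸ 𝔞 N`. -/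
noncomputable def semilinQuotMap :
    (Fin d → P) →+ (N ⧸ 𝔞 • (⊤ : Submodule P N)) where
  toFun c := Submodule.Quotient.mk (∑ i, φ (c i) • b i)
  map_zero' := by simp
  map_add' c c' := by
    simp only [Pi.add_apply, map_add, add_smul, Finset.sum_add_distrib,
      Submodule.Quotient.mk_add]

lemma semilinQuotMap_apply (c : Fin d → P) :
    semilinQuotMap φ b 𝔞 c = Submodule.Quotient.mk (∑ i, φ (c i) • b i) := rfl

lemma semilinQuotMap_smul (s : P) (c : Fin d → P) :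
    semilinQuotMap φ b 𝔞 (s • c) = φ s • semilinQuotMap φ b 𝔞 c := by
  simp only [semilinQuotMap_apply, Pi.smul_apply, smul_eq_mul, map_mul, mul_smul,
    ← Finset.smul_sum, Submodule.Quotient.mk_smul]

lemma semilinQuotMap_eq_of_sub_mem (h𝔞 : (maximalIdeal P).map φ ≤ 𝔞) (c c' : Fin d → P)
    (h : ∀ i, c i - c' i ∈ maximalIdeal P) :
    semilinQuotMap φ b 𝔞 c = semilinQuotMap φ b 𝔞 c' := by
  rw [← sub_eq_zero, ← map_sub, semilinQuotMap_apply, Submodule.Quotient.mk_eq_zero]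
  refine Submodule.sum_mem _ fun i _ => ?_
  refine Submodule.smul_mem_smul (h𝔞 ?_) Submodule.mem_top
  exact Ideal.mem_map_of_mem φ (h i)

/-- The monotone map from submodules of `N ⧸ 𝔞 N` to submodules of `Fin d → P ⧸ 𝔪`. -/
noncomputable def semilinSubmoduleMap (W : Submodule P (N ⧸ 𝔞 • (⊤ : Submodule P N))) :
    Submodule P (Fin d → P ⧸ maximalIdeal P) where
  carrier := {cbar | ∃ c : Fin d → P, (fun i => Ideal.Quotient.mk (maximalIdeal P) (c i)) = cbar ∧
    semilinQuotMap φ b 𝔞 c ∈ W}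
  add_mem' := by
    rintro _ _ ⟨c, rfl, hc⟩ ⟨c', rfl, hc'⟩
    refine ⟨c + c', ?_, ?_⟩
    · ext i; simp
    · rw [map_add]; exact W.add_mem hc hc'
  zero_mem' := ⟨0, by ext i; simp, by rw [map_zero]; exact W.zero_mem⟩
  smul_mem' := by
    rintro s _ ⟨c, rfl, hc⟩
    refine ⟨s • c, ?_, ?_⟩
    · ext i
      simp only [Pi.smul_apply, smul_eq_mul, map_mul]
      rfl
    · rw [semilinQuotMap_smul]; exact W.smul_mem _ hc

lemma semilinSubmoduleMap_strictMono
    (hspan : ∀ x : N, ∃ c : Fin d → P, x = ∑ i, φ (c i) • b i)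
    (h𝔞 : (maximalIdeal P).map φ ≤ 𝔞) :
    StrictMono (semilinSubmoduleMap φ b 𝔞) := by
  intro W W' hlt
  refine lt_of_le_of_ne ?_ ?_
  · rintro _ ⟨c, rfl, hc⟩
    exact ⟨c, rfl, hlt.le hc⟩
  · intro heq
    obtain ⟨x, hxW', hxW⟩ := SetLike.exists_of_lt hlt
    obtain ⟨y, rfl⟩ := Submodule.Quotient.mk_surjective _ x
    obtain ⟨c, rfl⟩ := hspan y
    have hmem : (fun i => Ideal.Quotient.mk (maximalIdeal P) (c i)) ∈
        semilinSubmoduleMap φ b 𝔞 W' := ⟨c, rfl, hxW'⟩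
    rw [← heq] at hmem
    obtain ⟨c', hc', hc'W⟩ := hmem
    apply hxW
    have : semilinQuotMap φ b 𝔞 c = semilinQuotMap φ b 𝔞 c' := by
      apply semilinQuotMap_eq_of_sub_mem φ b 𝔞 h𝔞
      intro i
      have := congrFun hc' i
      rw [← Ideal.Quotient.eq_zero_iff_mem, map_sub, sub_eq_zero]
      exact this.symm
    rw [← semilinQuotMap_apply, this]
    exact hc'W

end

/-- **Piece B.** If `N` is spanned by `b` with coefficients in `φ(P)` and `φ(𝔪) ⊆ 𝔞`, then
`N ⧸ 𝔞 N` is an Artinian `P`-module. -/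
theorem isArtinian_quot_of_semilinear {P : Type*} [CommRing P] [IsLocalRing P] (φ : P →+* P)
    {N : Type*} [AddCommGroup N] [Module P N] {d : ℕ} (b : Fin d → N)
    (hspan : ∀ x : N, ∃ c : Fin d → P, x = ∑ i, φ (c i) • b i)
    (𝔞 : Ideal P) (h𝔞 : (maximalIdeal P).map φ ≤ 𝔞) :
    IsArtinian P (N ⧸ 𝔞 • (⊤ : Submodule P N)) := by
  have hsimple : IsSimpleModule P (P ⧸ maximalIdeal P) :=
    isSimpleModule_iff_quot_maximal.mpr ⟨maximalIdeal P, inferInstance, ⟨LinearEquiv.refl _ _⟩⟩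
  have hart : IsArtinian P (Fin d → P ⧸ maximalIdeal P) := inferInstance
  exact (semilinSubmoduleMap_strictMono φ b 𝔞 hspan h𝔞).wellFoundedLT

/-- Finite-length version of piece B, for a finite module over a Noetherian local ring. -/
theorem isFiniteLength_quot_of_semilinear {P : Type*} [CommRing P] [IsLocalRing P]
    [IsNoetherianRing P] (φ : P →+* P)
    {N : Type*} [AddCommGroup N] [Module P N] [Module.Finite P N] {d : ℕ} (b : Fin d → N)
    (hspan : ∀ x : N, ∃ c : Fin d → P, x = ∑ i, φ (c i) • b i)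
    (𝔞 : Ideal P) (h𝔞 : (maximalIdeal P).map φ ≤ 𝔞) :
    IsFiniteLength P (N ⧸ 𝔞 • (⊤ : Submodule P N)) := by
  have hart := isArtinian_quot_of_semilinear φ b hspan 𝔞 h𝔞
  exact isFiniteLength_iff_isNoetherian_isArtinian.mpr ⟨inferInstance, hart⟩

end Fermat.Agent.S57
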