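import Mathlib

/-!
# The standard regular sequence in a power series ring over a DVR

For a discrete valuation ring `A` with uniformiser `ϖ`, the sequence `X₀, …, X_{r-1}, ϖ` is a
regular sequence in `A⟦X₀, …, X_{r-1}⟧` generating the maximal ideal.
-/

set_option autoImplicit false

namespace Fermat.Agent.S57

open MvPowerSeries RingTheory.Sequence IsLocalRing

/-- The ideal of power series whose coefficients vanish at all exponents `m` with
`m j = 0` for all `j < i`. -/
def lowIdeal (A : Type*) [CommRing A] (r i : ℕ) : Ideal (MvPowerSeries (Fin r) A) where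
  carrier := {f | ∀ m : Fin r →₀ ℕ, (∀ j : Fin r, j.val < i → m j = 0) → coeff m f = 0}
  add_mem' := by
    intro f g hf hg m hm
    simp only [Set.mem_ofPred_eq] at hf hg
    rw [map_add, hf m hm, hg m hm, add_zero]
  zero_mem' := by
    intro m _
    simp
  smul_mem' := by
    intro c f hf m hm
    simp only [Set.mem_ofPred_eq] at hf
    rw [smul_eq_mul, coeff_mul]
    apply Finset.sum_eq_zero
    intro p hp
    have hp' : p.1 + p.2 = m := Finset.HasAntidiagonal.mem_antidiagonal.mp hp
    have : coeff p.2 f = 0 := by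
      apply hf
      intro j hj
      have h1 := hm j hj
      rw [← hp'] at h1
      simp only [Finsupp.coe_add, Pi.add_apply, Nat.add_eq_zero_iff] at h1
      exact h1.2
    rw [this, mul_zero]

lemma mem_lowIdeal {A : Type*} [CommRing A] {r i : ℕ} {f : MvPowerSeries (Fin r) A} :
    f ∈ lowIdeal A r i ↔
      ∀ m : Fin r →₀ ℕ, (∀ j : Fin r, j.val < i → m j = 0) → coeff m f = 0 :=
  Iff.rfl

lemma X_mem_lowIdeal {A : Type*} [CommRing A] {r i : ℕ} (j : Fin r) (hj : j.val < i) :
    (X j : MvPowerSeries (Fin r) A) ∈ lowIdeal A r i := by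
  intro m hm
  rw [coeff_X, if_neg]
  intro h
  have := hm j hj
  rw [h] at this
  simp at this

lemma lowIdeal_mono {A : Type*} [CommRing A] {r i i' : ℕ} (h : i ≤ i') :
    lowIdeal A r i ≤ lowIdeal A r i' := by
  intro f hf m hm
  exact hf m (fun j hj => hm j (lt_of_lt_of_le hj h))

lemma lowIdeal_le_span {A : Type*} [CommRing A] {r : ℕ} (i : ℕ) (hi : i ≤ r) :
    lowIdeal A r i ≤
      Ideal.span {x : MvPowerSeries (Fin r) A | ∃ j : Fin r, j.val < i ∧ x = X j} := by
  induction i with
  | zero =>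
    intro f hf
    have : f = 0 := by
      ext m
      rw [hf m (fun j hj => absurd hj (Nat.not_lt_zero _))]
      simp
    rw [this]
    exact Ideal.zero_mem _
  | succ i ih =>
    intro f hf
    have hi' : i < r := hi
    -- split off the part not involving `X i`
    let f₁ : MvPowerSeries (Fin r) A := fun m => if m ⟨i, hi'⟩ = 0 then coeff m f else 0
    have hf₁ : ∀ m, coeff m f₁ = if m ⟨i, hi'⟩ = 0 then coeff m f else 0 := fun m => rfl
    have h1 : f₁ ∈ lowIdeal A r i := by
      intro m hm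
      rw [hf₁]
      split_ifs with h0
      · apply hf
        intro j hj
        rcases Nat.lt_succ_iff_lt_or_eq.mp hj with h | h
        · exact hm j h
        · have : j = ⟨i, hi'⟩ := Fin.ext h
          rw [this]; exact h0
      · rfl
    have h2 : (X ⟨i, hi'⟩ : MvPowerSeries (Fin r) A) ∣ f - f₁ := by
      rw [X_dvd_iff]
      intro m hm
      rw [map_sub, hf₁, if_pos hm, sub_self]
    have h3 : f₁ ∈ Ideal.span
        {x : MvPowerSeries (Fin r) A | ∃ j : Fin r, j.val < i + 1 ∧ x = X j} := by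
      refine Ideal.span_mono ?_ (ih (Nat.le_of_lt hi') h1)
      rintro x ⟨j, hj, rfl⟩
      exact ⟨j, Nat.lt_succ_of_lt hj, rfl⟩
    have h4 : f - f₁ ∈ Ideal.span
        {x : MvPowerSeries (Fin r) A | ∃ j : Fin r, j.val < i + 1 ∧ x = X j} := by
      obtain ⟨g, hg⟩ := h2
      rw [hg]
      exact Ideal.mul_mem_right _ _ (Ideal.subset_span ⟨⟨i, hi'⟩, Nat.lt_succ_self i, rfl⟩)
    have : f = f₁ + (f - f₁) := by ring
    rw [this]
    exact Ideal.add_mem _ h3 h4

lemma span_X_lt_eq_lowIdeal {A : Type*} [CommRing A] {r : ℕ} (i : ℕ) (hi : i ≤ r) :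
    Ideal.span {x : MvPowerSeries (Fin r) A | ∃ j : Fin r, j.val < i ∧ x = X j} =
      lowIdeal A r i := by
  apply le_antisymm
  · rw [Ideal.span_le]
    rintro x ⟨j, hj, rfl⟩
    exact X_mem_lowIdeal j hj
  · exact lowIdeal_le_span i hi

/-- The standard sequence `X₀, …, X_{r-1}, ϖ`. -/
noncomputable def stdSeq {A : Type*} [CommRing A] (r : ℕ) (ϖ : A) : List (MvPowerSeries (Fin r) A) :=
  List.ofFn (fun j : Fin r => (X j : MvPowerSeries (Fin r) A)) ++ [C ϖ]

lemma stdSeq_length {A : Type*} [CommRing A] (r : ℕ) (ϖ : A) :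
    (stdSeq r ϖ).length = r + 1 := by
  simp [stdSeq]

lemma stdSeq_getElem_lt {A : Type*} [CommRing A] (r : ℕ) (ϖ : A) (k : ℕ) (hk : k < r)
    (hk' : k < (stdSeq r ϖ).length) :
    (stdSeq r ϖ)[k] = (X ⟨k, hk⟩ : MvPowerSeries (Fin r) A) := by
  simp only [stdSeq]
  rw [List.getElem_append_left (by simpa using hk)]
  simp

lemma stdSeq_getElem_last {A : Type*} [CommRing A] (r : ℕ) (ϖ : A)
    (hk' : r < (stdSeq r ϖ).length) :
    (stdSeq r ϖ)[r] = (C ϖ : MvPowerSeries (Fin r) A) := by
  simp only [stdSeq]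
  rw [List.getElem_append_right (by simp)]
  simp

lemma ofList_take_stdSeq {A : Type*} [CommRing A] (r : ℕ) (ϖ : A) (i : ℕ) (hi : i ≤ r) :
    Ideal.ofList ((stdSeq r ϖ).take i) = lowIdeal A r i := by
  rw [← span_X_lt_eq_lowIdeal i hi]
  unfold Ideal.ofList
  congr 1
  ext x
  simp only [Set.mem_ofPred_eq, List.mem_take_iff_getElem]
  constructor
  · rintro ⟨k, hk, rfl⟩
    have hk1 : k < i := lt_of_lt_of_le hk (min_le_left _ _)
    have hk2 : k < r := lt_of_lt_of_le hk1 hi
    exact ⟨⟨k, hk2⟩, hk1, stdSeq_getElem_lt r ϖ k hk2 _⟩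
  · rintro ⟨j, hj, rfl⟩
    have h1 : j.val < (stdSeq r ϖ).length := by
      rw [stdSeq_length]; exact Nat.lt_succ_of_lt j.isLt
    refine ⟨j.val, lt_min hj h1, ?_⟩
    rw [stdSeq_getElem_lt r ϖ j.val j.isLt]

lemma isWeaklyRegular_stdSeq {A : Type*} [CommRing A] [IsDomain A] (r : ℕ) (ϖ : A)
    (hϖ : ϖ ≠ 0) :
    IsWeaklyRegular (MvPowerSeries (Fin r) A) (stdSeq r ϖ) := by
  rw [isWeaklyRegular_iff]
  intro i hi
  have hi' : i ≤ r := by
    rw [stdSeq_length] at hi
    exact Nat.lt_succ_iff.mp hi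
  rw [isSMulRegular_quotient_iff_mem_of_smul_mem, ofList_take_stdSeq r ϖ i hi', smul_eq_mul,
    Ideal.mul_top]
  intro f hf
  rcases Nat.lt_or_eq_of_le hi' with hlt | heq
  · rw [stdSeq_getElem_lt r ϖ i hlt] at hf
    intro m hm
    have h1 := hf (m + Finsupp.single ⟨i, hlt⟩ 1) (by
      intro j hj
      have hne : (⟨i, hlt⟩ : Fin r) ≠ j := by
        intro h
        rw [← h] at hj
        exact lt_irrefl _ hj
      rw [Finsupp.add_apply, hm j hj, Finsupp.single_apply, if_neg hne, add_zero])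
    rw [smul_eq_mul, mul_comm, X, coeff_add_mul_monomial, mul_one] at h1
    exact h1
  · subst heq
    rw [stdSeq_getElem_last] at hf
    intro m hm
    have h1 := hf m hm
    rw [smul_eq_mul, coeff_C_mul] at h1
    exact (mul_eq_zero.mp h1).resolve_left hϖ

lemma ofList_stdSeq_eq_maximalIdeal {A : Type*} [CommRing A] [IsDomain A]
    [IsDiscreteValuationRing A] (r : ℕ) (ϖ : A) (hϖ : Irreducible ϖ) :
    Ideal.ofList (stdSeq r ϖ) = maximalIdeal (MvPowerSeries (Fin r) A) := by
  apply le_antisymm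
  · unfold Ideal.ofList
    rw [Ideal.span_le]
    intro x hx
    simp only [Set.mem_ofPred_eq, stdSeq, List.mem_append, List.mem_ofFn, List.mem_singleton]
      at hx
    rw [SetLike.mem_coe, mem_maximalIdeal, mem_nonunits_iff, isUnit_iff_constantCoeff]
    rcases hx with ⟨j, rfl⟩ | rfl
    · rw [constantCoeff_X]
      exact not_isUnit_zero
    · rw [constantCoeff_C]
      exact hϖ.not_isUnit
  · intro f hf
    rw [mem_maximalIdeal, mem_nonunits_iff, isUnit_iff_constantCoeff] at hf
    have h1 : constantCoeff f ∈ maximalIdeal A := by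
      rw [mem_maximalIdeal, mem_nonunits_iff]; exact hf
    rw [hϖ.maximalIdeal_eq, Ideal.mem_span_singleton] at h1
    obtain ⟨a, ha⟩ := h1
    have h2 : f - C (constantCoeff f) ∈ lowIdeal A r r := by
      intro m hm
      have hm0 : m = 0 := by
        ext j
        exact hm j j.isLt
      subst hm0
      simp
    rw [← ofList_take_stdSeq r ϖ r le_rfl] at h2
    have h3 : Ideal.ofList ((stdSeq r ϖ).take r) ≤ Ideal.ofList (stdSeq r ϖ) := by
      apply Ideal.span_mono
      intro x hx
      exact List.mem_of_mem_take hx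
    have h4 : (C (constantCoeff f) : MvPowerSeries (Fin r) A) ∈ Ideal.ofList (stdSeq r ϖ) := by
      rw [ha, map_mul]
      apply Ideal.mul_mem_right
      apply Ideal.subset_span
      simp [stdSeq]
    have : f = (f - C (constantCoeff f)) + C (constantCoeff f) := by ring
    rw [this]
    exact Ideal.add_mem _ (h3 h2) h4

lemma isRegular_stdSeq {A : Type*} [CommRing A] [IsDomain A]
    [IsDiscreteValuationRing A] (r : ℕ) (ϖ : A) (hϖ : Irreducible ϖ) :
    IsRegular (MvPowerSeries (Fin r) A) (stdSeq r ϖ) := by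
  refine ⟨isWeaklyRegular_stdSeq r ϖ hϖ.ne_zero, ?_⟩
  rw [smul_eq_mul, Ideal.mul_top, ofList_stdSeq_eq_maximalIdeal r ϖ hϖ]
  exact (Ideal.IsMaximal.ne_top (maximalIdeal.isMaximal _)).symm

end Fermat.Agent.S57
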