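import Mathlib

/-!
# Modules that are free "through a ring endomorphism"

Let `φ : P →+* P` be a ring endomorphism and `N` a `P`-module with elements `b i` such that every
element of `N` is uniquely of the form `∑ φ (c i) • b i`.  Regular sequences on `P` are
transported to weakly regular sequences on `N` (after applying `φ`).
-/

set_option autoImplicit false

namespace Fermat.Agent.S57

open RingTheory.Sequence IsLocalRing

section

variable {P : Type*} [CommRing P] (φ : P →+* P) {N : Type*} [AddCommGroup N] [Module P N]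
  {d : ℕ} (b : Fin d → N)

/-- The additive map `c ↦ ∑ φ (c i) • b i`. -/
def semiMap : (Fin d → P) →+ N where
  toFun c := ∑ i, φ (c i) • b i
  map_zero' := by simp
  map_add' := by
    intro c c'
    simp [add_smul, Finset.sum_add_distrib]

lemma semiMap_apply (c : Fin d → P) : semiMap φ b c = ∑ i, φ (c i) • b i := rfl

lemma semiMap_smul (s : P) (c : Fin d → P) : semiMap φ b (s • c) = φ s • semiMap φ b c := by
  simp [semiMap_apply, Finset.smul_sum, mul_smul]

lemma semiMap_bijective (hspan : ∀ x : N, ∃ c : Fin d → P, x = ∑ i, φ (c i) • b i)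
    (hrel : ∀ c : Fin d → P, ∑ i, φ (c i) • b i = 0 ↔ ∀ i, c i = 0) :
    Function.Bijective (semiMap φ b) := by
  constructor
  · rw [injective_iff_map_eq_zero]
    intro c hc
    funext i
    exact (hrel c).mp hc i
  · intro x
    obtain ⟨c, hc⟩ := hspan x
    exact ⟨c, hc.symm⟩

/-- The additive equivalence `c ↦ ∑ φ (c i) • b i`. -/
noncomputable def semiEquiv (hspan : ∀ x : N, ∃ c : Fin d → P, x = ∑ i, φ (c i) • b i)
    (hrel : ∀ c : Fin d → P, ∑ i, φ (c i) • b i = 0 ↔ ∀ i, c i = 0) : (Fin d → P) ≃+ N :=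
  AddEquiv.ofBijective (semiMap φ b) (semiMap_bijective φ b hspan hrel)

lemma semiEquiv_apply (hspan : ∀ x : N, ∃ c : Fin d → P, x = ∑ i, φ (c i) • b i)
    (hrel : ∀ c : Fin d → P, ∑ i, φ (c i) • b i = 0 ↔ ∀ i, c i = 0) (c : Fin d → P) :
    semiEquiv φ b hspan hrel c = semiMap φ b c := rfl

lemma isWeaklyRegular_pi_of_isWeaklyRegular {rs : List P} (h : IsWeaklyRegular P rs) :
    IsWeaklyRegular (Fin d → P) rs := by
  have h1 : IsWeaklyRegular (TensorProduct P P (Fin d → P)) rs :=
    h.isWeaklyRegular_rTensor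
  exact (LinearEquiv.isWeaklyRegular_congr (TensorProduct.lid P (Fin d → P)) rs).mp h1

theorem isWeaklyRegular_map_of_semilinear_basis
    (hspan : ∀ x : N, ∃ c : Fin d → P, x = ∑ i, φ (c i) • b i)
    (hrel : ∀ c : Fin d → P, ∑ i, φ (c i) • b i = 0 ↔ ∀ i, c i = 0)
    {rs : List P} (h : IsWeaklyRegular P rs) :
    IsWeaklyRegular N (rs.map φ) := by
  have h1 : IsWeaklyRegular (Fin d → P) rs := isWeaklyRegular_pi_of_isWeaklyRegular h
  refine (AddEquiv.isWeaklyRegular_congr (e := semiEquiv φ b hspan hrel) ?_).mp h1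
  exact List.forall₂_map_right_iff.mpr <| List.forall₂_same.mpr fun s _ c => by
    rw [semiEquiv_apply, semiEquiv_apply, semiMap_smul]

theorem finite_of_semilinear_basis
    (hspan : ∀ x : N, ∃ c : Fin d → P, x = ∑ i, φ (c i) • b i) :
    Module.Finite P N := by
  classical
  refine ⟨⟨Finset.univ.image b, ?_⟩⟩
  rw [eq_top_iff]
  intro x _
  obtain ⟨c, rfl⟩ := hspan x
  refine Submodule.sum_mem _ fun i _ => Submodule.smul_mem _ _ (Submodule.subset_span ?_)
  simp

end

end Fermat.Agent.S57
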